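/-
Program B' (S34), leaf (M2 CHARTS) of helper30's skeleton `S34/H30/Skeleton.lean` — helper44.

`A₀` a discrete valuation ring of characteristic zero, `F₀` a field over `A₀`, `j : F₀`
transcendental over `A₀` with `F₀ / K₀(j)` finite (`K₀ = Frac A₀`; `K₀(j) = H19.ratSub A₀ j`).
The two charts are the landed `H19.chart`:

  `C₁ := chart A₀ j`   (integral closure of `A₀[j]` in `F₀`),
  `C₂ := chart A₀ j⁻¹` (integral closure of `A₀[j⁻¹]` in `F₀`).

* `ChartsGood A₀ j` : the chart fields of `H30.ChartData.Good` (`j_ne`, `icl`, `noeth`, `j_mem`,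
  `fin₁`, `frac`, `glue`) in their literal shapes, and `inter` (`C₁ ∩ C₂` is integral over `A₀`);
* `chartsGood` : `ChartsGood A₀ j` from `Transcendental A₀ j` and
  `Module.Finite (ratSub A₀ j) F₀`;
* `chart_map_mem_iff` : a ring automorphism of `F₀` preserving the image of `A₀` and fixing `x`
  preserves `chart A₀ x` (the fields `τ_mem₁`, `τ_mem₂`);
* `map_inter_mem_range` : the field `ι_const` from `inter`, for a ring homomorphism `ι : F₀ → E`
  mapping `A₀` into a subfield `K` which is integrally closed in `E`.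

Everything is assembled from the landed generic chart lemmas of S18 (`H95/ChartPkg`, `H92/Glue`,
`H92/ChartE`, `H78/DSetupInv`); new here: noetherianity and the automorphism statement.
-/
import Mathlib
import Fermat.Agent.S18.H19.Core2Defs
import Fermat.Agent.S18.H95.ChartPkg
import Fermat.Agent.S18.H92.ChartE
import Fermat.Agent.S18.H78.DSetupInv

set_option autoImplicit false
set_option linter.style.haveILetI false
set_option linter.unusedSectionVars false

open Polynomial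

noncomputable section

namespace Fermat.Agent.S34.H44

open Fermat.Agent.S18.H19

/-! ### Automorphisms -/

section Aut

variable {A₀ : Type*} [CommRing A₀] {F₀ : Type*} [Field F₀] [Algebra A₀ F₀]

/-- A ring endomorphism of `F₀` mapping the image of `A₀` into itself and fixing `x` maps
`A₀[x]` into itself. -/
theorem map_mem_adjoin (τ : F₀ →+* F₀)
    (hτ : ∀ a : A₀, ∃ b : A₀, τ (algebraMap A₀ F₀ a) = algebraMap A₀ F₀ b)
    (x : F₀) (hx : τ x = x) {y : F₀} (hy : y ∈ Algebra.adjoin A₀ ({x} : Set F₀)) :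
    τ y ∈ Algebra.adjoin A₀ ({x} : Set F₀) := by
  induction hy using Algebra.adjoin_induction with
  | mem y hy =>
    rw [Set.mem_singleton_iff] at hy
    rw [hy, hx]
    exact Algebra.subset_adjoin (Set.mem_singleton x)
  | algebraMap a =>
    obtain ⟨b, hb⟩ := hτ a
    rw [hb]
    exact Subalgebra.algebraMap_mem _ b
  | add y z _ _ hy hz =>
    rw [map_add]
    exact add_mem hy hz
  | mul y z _ _ hy hz =>
    rw [map_mul]
    exact mul_mem hy hz

/-- A ring endomorphism of `F₀` mapping the image of `A₀` into itself and fixing `x` maps the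
chart of `x` into itself. -/
theorem map_mem_chart (τ : F₀ →+* F₀)
    (hτ : ∀ a : A₀, ∃ b : A₀, τ (algebraMap A₀ F₀ a) = algebraMap A₀ F₀ b)
    (x : F₀) (hx : τ x = x) {c : F₀} (hc : c ∈ chart A₀ x) : τ c ∈ chart A₀ x := by
  rw [mem_chart_iff] at hc ⊢
  let φ : ↥(Algebra.adjoin A₀ ({x} : Set F₀)) →+* ↥(Algebra.adjoin A₀ ({x} : Set F₀)) :=
    (τ.comp (algebraMap ↥(Algebra.adjoin A₀ ({x} : Set F₀)) F₀)).codRestrict
      (Algebra.adjoin A₀ ({x} : Set F₀)) (fun y => map_mem_adjoin τ hτ x hx y.2)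
  have hφ : (algebraMap ↥(Algebra.adjoin A₀ ({x} : Set F₀)) F₀).comp φ =
      τ.comp (algebraMap ↥(Algebra.adjoin A₀ ({x} : Set F₀)) F₀) :=
    RingHom.ext fun y => rfl
  exact IsIntegral.map_of_comp_eq φ τ hφ hc

/-- **The fields `τ_mem₁`, `τ_mem₂`**: a ring automorphism of `F₀` which preserves the image of
`A₀` and fixes `x` preserves the chart of `x`. -/
theorem chart_map_mem_iff (τ : F₀ ≃+* F₀)
    (hτ : ∀ a : A₀, ∃ b : A₀, τ (algebraMap A₀ F₀ a) = algebraMap A₀ F₀ b)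
    (hτ' : ∀ a : A₀, ∃ b : A₀, τ (algebraMap A₀ F₀ b) = algebraMap A₀ F₀ a)
    (x : F₀) (hx : τ x = x) (c : F₀) : τ c ∈ chart A₀ x ↔ c ∈ chart A₀ x := by
  constructor
  · intro h
    have hs : ∀ a : A₀, ∃ b : A₀, (τ.symm : F₀ →+* F₀) (algebraMap A₀ F₀ a) = algebraMap A₀ F₀ b := by
      intro a
      obtain ⟨b, hb⟩ := hτ' a
      refine ⟨b, ?_⟩
      rw [← hb]
      exact τ.symm_apply_apply _
    have hxs : (τ.symm : F₀ →+* F₀) x = x := by
      conv_lhs => rw [← hx]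
      exact τ.symm_apply_apply x
    have h2 := map_mem_chart (A₀ := A₀) (τ.symm : F₀ →+* F₀) hs x hxs h
    have h3 : (τ.symm : F₀ →+* F₀) (τ c) = c := τ.symm_apply_apply c
    rwa [h3] at h2
  · intro h
    exact map_mem_chart (A₀ := A₀) (τ : F₀ →+* F₀) hτ x hx h

/-- The same for the chart of `x⁻¹`. -/
theorem chart_inv_map_mem_iff (τ : F₀ ≃+* F₀)
    (hτ : ∀ a : A₀, ∃ b : A₀, τ (algebraMap A₀ F₀ a) = algebraMap A₀ F₀ b)
    (hτ' : ∀ a : A₀, ∃ b : A₀, τ (algebraMap A₀ F₀ b) = algebraMap A₀ F₀ a)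
    (x : F₀) (hx : τ x = x) (c : F₀) : τ c ∈ chart A₀ x⁻¹ ↔ c ∈ chart A₀ x⁻¹ :=
  chart_map_mem_iff τ hτ hτ' x⁻¹ (by rw [map_inv₀, hx]) c

end Aut

/-! ### The chart fields -/

section Charts

variable (A₀ : Type*) [CommRing A₀] {F₀ : Type*} [Field F₀] [Algebra A₀ F₀]

/-- The chart fields of `H30.ChartData.Good` for `C₁ = chart A₀ j`, `C₂ = chart A₀ j⁻¹`, in
their literal shapes, together with `inter`: global functions are integral over `A₀`. -/
structure ChartsGood (j : F₀) : Prop where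
  j_ne : j ≠ 0
  icl₁ : IsIntegrallyClosed ↥(chart A₀ j)
  icl₂ : IsIntegrallyClosed ↥(chart A₀ j⁻¹)
  noeth₁ : IsNoetherianRing ↥(chart A₀ j)
  noeth₂ : IsNoetherianRing ↥(chart A₀ j⁻¹)
  j_mem₁ : j ∈ chart A₀ j
  j_mem₂ : j⁻¹ ∈ chart A₀ j⁻¹
  fin₁ : ∃ s : Finset F₀, (chart A₀ j : Set F₀) =
    Submodule.span (Algebra.adjoin A₀ ({j} : Set F₀)) (s : Set F₀)
  fin₂ : ∃ s : Finset F₀, (chart A₀ j⁻¹ : Set F₀) =
    Submodule.span (Algebra.adjoin A₀ ({j⁻¹} : Set F₀)) (s : Set F₀)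
  frac₁ : ∀ x : F₀, ∃ a ∈ chart A₀ j, ∃ b ∈ chart A₀ j, b ≠ 0 ∧ x = a / b
  frac₂ : ∀ x : F₀, ∃ a ∈ chart A₀ j⁻¹, ∃ b ∈ chart A₀ j⁻¹, b ≠ 0 ∧ x = a / b
  glue : ∀ x : F₀, (∃ n : ℕ, j ^ n * x ∈ chart A₀ j) ↔ (∃ n : ℕ, j⁻¹ ^ n * x ∈ chart A₀ j⁻¹)
  inter : ∀ c ∈ chart A₀ j, c ∈ chart A₀ j⁻¹ → IsIntegral A₀ c

variable {A₀}
variable [IsDomain A₀] [IsDiscreteValuationRing A₀] [CharZero A₀] [FaithfulSMul A₀ F₀]

/-- The chart is a noetherian ring (finite over `A₀[X]`). -/
theorem chart_isNoetherianRing (x : F₀) (htr : Transcendental A₀ x)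
    (hfin : Module.Finite ↥(ratSub A₀ x) F₀) : IsNoetherianRing ↥(chart A₀ x) := by
  letI : Algebra A₀[X] ↥(chart A₀ x) := Fermat.Agent.S18.H95.chartAlgebra (A₀ := A₀) x
  haveI : Module.Finite A₀[X] ↥(chart A₀ x) :=
    Fermat.Agent.S18.H95.chart_finite_sub x htr hfin
  exact IsNoetherianRing.of_finite A₀[X] ↥(chart A₀ x)

/-- **Leaf (M2 CHARTS).** -/
theorem chartsGood (j : F₀) (htr : Transcendental A₀ j)
    (hfin : Module.Finite ↥(ratSub A₀ j) F₀) : ChartsGood A₀ j := by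
  have hj0 : j ≠ 0 := fun h => htr (by rw [h]; exact isAlgebraic_zero)
  have htr' : Transcendental A₀ j⁻¹ := Fermat.Agent.S18.H78.transcendental_inv j htr
  have hfin' : Module.Finite ↥(ratSub A₀ j⁻¹) F₀ := by
    rw [Fermat.Agent.S18.H78.ratSub_inv_eq]
    exact hfin
  exact
    { j_ne := hj0
      icl₁ := Fermat.Agent.S18.H95.isIntegrallyClosed_chart j
      icl₂ := Fermat.Agent.S18.H95.isIntegrallyClosed_chart j⁻¹
      noeth₁ := chart_isNoetherianRing j htr hfin
      noeth₂ := chart_isNoetherianRing j⁻¹ htr' hfin'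
      j_mem₁ := self_mem_chart A₀ j
      j_mem₂ := self_mem_chart A₀ j⁻¹
      fin₁ := Fermat.Agent.S18.H95.chart_fin_sub j htr hfin
      fin₂ := Fermat.Agent.S18.H95.chart_fin_sub j⁻¹ htr' hfin'
      frac₁ := Fermat.Agent.S18.H95.chart_frac_sub j htr hfin
      frac₂ := Fermat.Agent.S18.H95.chart_frac_sub j⁻¹ htr' hfin'
      glue := Fermat.Agent.S18.H92.chart_glue j hj0
      inter := fun c h₁ h₂ => Fermat.Agent.S18.H92.isIntegral_of_two_charts j c h₁ h₂ }

end Charts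

/-! ### Global functions are constants -/

section Const

variable {A₀ : Type*} [CommRing A₀] {F₀ : Type*} [Field F₀] [Algebra A₀ F₀]

/-- **The field `ι_const`** from `ChartsGood.inter`: if `ι : F₀ → E` maps `A₀` into a subfield
`K` of `E` which is integrally closed in `E`, then the global functions `C₁ ∩ C₂` are mapped
into `K`. -/
theorem map_inter_mem_range {K E : Type*} [Field K] [Field E] [Algebra K E]
    (hK : ∀ y : E, IsIntegral K y → ∃ a : K, y = algebraMap K E a)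
    (ι : F₀ →+* E) (hι : ∀ a : A₀, ∃ b : K, ι (algebraMap A₀ F₀ a) = algebraMap K E b)
    (c : F₀) (hc : IsIntegral A₀ c) : ∃ a : K, ι c = algebraMap K E a := by
  refine hK (ι c) ?_
  obtain ⟨p, hp, hpc⟩ := hc
  have h1 : (ι.comp (algebraMap A₀ F₀)).IsIntegralElem (ι c) := by
    refine ⟨p, hp, ?_⟩
    rw [← Polynomial.hom_eval₂, hpc, map_zero]
  refine Fermat.Agent.S18.H92.isIntegralElem_of_range_subset (ι.comp (algebraMap A₀ F₀))
    (algebraMap K E) (fun a => ?_) h1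
  obtain ⟨b, hb⟩ := hι a
  exact ⟨b, hb.symm⟩

end Const

end Fermat.Agent.S34.H44
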