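/-
S34 / Program B' (helper44): the chart fields (M2) and the constants (ALG-CL) of the model, for
the CONCRETE `K₀`-form `ratForm N K₀` (helper61) of `F_N = ℚ̄(X₀(N))` at ANY level `N`.

Notation: `A₀ = A ∩ K₀` (`A.comap (algebraMap K₀ Kb)`), `F₀ = ratForm N K₀` with the algebra
structure `S18.H19.algComap`, `j = ratEmb N x₀` a rational function, transcendental over `ℚ̄`.

* `mem_of_forall_fixed`   : an element of `ℚ̄` fixed by `Gal(ℚ̄ / K₀)` lies in `K₀`.
* `ratForm_const₀`        : `A₀` is integrally closed in `F₀` (`K₀` is algebraically closed in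
  `F₀`, by Galois descent along the coefficientwise Galois action) — no hypothesis on `N`.
* `exists_rat_basis`      : a `ℚ̄(j)`-basis of `F_N` consisting of rational functions, in which
  every rational function has `K₀(j)`-coordinates for every `K₀`  (no Gauss ring is used, so the
  level may be divisible by the residue characteristic).
* `goodPair_ratForm`      : `(K₀, ratForm N K₀)` is a good pair for such a basis.
* `ratForm_transc`, `ratForm_finite` : `j` is transcendental over `A₀`, and `F₀` is finite over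
  `K₀(j) = ratSub A₀ j`.
* `ratForm_chartsGood`    : the chart fields of the model (`H44.ChartsGood`) for
  `C₁ = chart A₀ j`, `C₂ = chart A₀ j⁻¹`.
* `ratForm_inter`         : `C₁ ∩ C₂ = A₀`  (the field `inter` of `H30.VData.Good`).
* `ratForm_base`          : the field `ι_base` for `ι` = the inclusion of `F₀`.
-/
import Fermat.Agent.S34.H44.Charts
import Fermat.Agent.S34.H61.TauDescent
import Fermat.Agent.S34.H19.RatLD
import Fermat.Agent.S34.H78.L6
import Fermat.Agent.S18.H67.DescCore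
import Fermat.Agent.S18.H78.DescBasis

set_option autoImplicit false
set_option linter.style.haveILetI false
set_option linter.unusedSectionVars false

open AlgebraicCurve IntermediateField ModularCurve Polynomial

noncomputable section

namespace Fermat.Agent.S34.H44

open Fermat.Agent.S18.H74 Fermat.Agent.S18.H28 Fermat.Agent.S18 Fermat.Agent.S18.H19
  Fermat.Agent.S18.H8 Fermat.Agent.S34.H19 Fermat.Agent.S34.H61

/-! ### Generalities -/

section Generic

variable {K : Type*} [Field K] {F : Type*} [Field F] [Algebra K F]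

/-- `F` has transcendence degree `≤ 1`: it is algebraic over `K(f)` for every non-constant `f`. -/
theorem isAlgebraic_adjoin_of_transc (x : F) [FiniteDimensional K⟮x⟯ F]
    {f : F} (hf : Transcendental K f) : Algebra.IsAlgebraic K⟮f⟯ F := by
  have halg : Algebra.IsAlgebraic (Algebra.adjoin K ({x} : Set F)) F :=
    IntermediateField.isAlgebraic_adjoin_iff_top.mp
      (Algebra.IsAlgebraic.of_finite K⟮x⟯ F)
  have htr : Algebra.trdeg K F ≤ 1 := by
    have h := Algebra.IsAlgebraic.trdeg_le_cardinalMk K ({x} : Set F)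
    simpa using h
  have hind : AlgebraicIndependent K (fun _ : Unit => f) :=
    algebraicIndependent_unique_type_iff.mpr hf
  have hbasis : IsTranscendenceBasis K (fun _ : Unit => f) :=
    hind.isTranscendenceBasis_of_lift_trdeg_le_of_finite (by simpa using htr)
  have h := hbasis.isAlgebraic_field
  rwa [Set.range_const] at h

/-- `F / K(f)` is finite for every non-constant `f`. -/
theorem finiteDimensional_adjoin_of_transc (x : F) [FiniteDimensional K⟮x⟯ F]
    {f : F} (hf : Transcendental K f) : FiniteDimensional K⟮f⟯ F := by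
  classical
  have := isAlgebraic_adjoin_of_transc x hf
  set b := Module.finBasis K⟮x⟯ F with hb
  set S : Set F := insert x (Set.range b) with hS
  have : Finite S := Set.Finite.to_subtype ((Set.finite_range b).insert x)
  have hfd : FiniteDimensional K⟮f⟯ (IntermediateField.adjoin K⟮f⟯ S) :=
    IntermediateField.finiteDimensional_adjoin fun y _ =>
      (Algebra.IsAlgebraic.isAlgebraic (R := K⟮f⟯) y).isIntegral
  have htop : IntermediateField.adjoin K⟮f⟯ S = ⊤ := by
    rw [eq_top_iff]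
    intro y _
    set E := IntermediateField.adjoin K⟮f⟯ S with hE
    have hxE : x ∈ E := IntermediateField.subset_adjoin _ _ (Set.mem_insert _ _)
    have hle : K⟮x⟯ ≤ E.restrictScalars K := by
      rw [adjoin_simple_le_iff]
      exact hxE
    have hy : y = ∑ i, (b.repr y i : F) * b i := by
      conv_lhs => rw [← b.sum_repr y]
      simp [Algebra.smul_def]
    rw [hy]
    refine E.sum_mem fun i _ => E.mul_mem (hle (b.repr y i).2) ?_
    exact IntermediateField.subset_adjoin _ _ (Set.mem_insert_of_mem _ (Set.mem_range_self i))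
  rw [htop] at hfd
  exact Module.Finite.equiv (IntermediateField.topEquiv (F := K⟮f⟯) (E := F)).toLinearEquiv

/-- Constants of an algebraically closed field: an algebraic element is a constant. -/
theorem exists_eq_algebraMap_of_isAlg [IsAlgClosed K] {f : F} (hf : IsAlgebraic K f) :
    ∃ c : K, algebraMap K F c = f := by
  have hirr := minpoly.irreducible hf.isIntegral
  exact minpoly.mem_range_of_degree_eq_one K f (IsAlgClosed.degree_eq_one_of_irreducible K hirr)

/-- Over an algebraically closed field, a root of a polynomial `Q ≠ 0` in an extension field is a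
constant, and a root of `Q` in `K`. -/
theorem exists_root_of_aeval_eq_zero [IsAlgClosed K] {y : F} (Q : K[X]) (hQ : Q.Monic)
    (h : aeval y Q = 0) : ∃ c : K, algebraMap K F c = y ∧ Q.IsRoot c := by
  have hint : IsIntegral K y := ⟨Q, hQ, h⟩
  obtain ⟨c, hc⟩ := exists_eq_algebraMap_of_isAlg hint.isAlgebraic
  refine ⟨c, hc, ?_⟩
  have h2 : algebraMap K F (Q.eval c) = 0 := by
    rw [← h, ← hc, aeval_algebraMap_apply, coe_aeval_eq_eval]
  exact (algebraMap K F).injective (by rw [h2, map_zero])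

/-- A subring `S` generating `F` as a field over `K` spans `F` over `K(x)`, as soon as
`F / K(x)` is algebraic. -/
theorem span_eq_top_of_adjoin_eq_top (x : F) [Algebra.IsAlgebraic K⟮x⟯ F] (S : Subring F)
    (hS : IntermediateField.adjoin K (S : Set F) = ⊤) :
    Submodule.span K⟮x⟯ (S : Set F) = ⊤ := by
  have h1 : Subalgebra.toSubmodule (Algebra.adjoin K⟮x⟯ (S : Set F))
      = Submodule.span K⟮x⟯ (S : Set F) := by
    rw [Algebra.adjoin_eq_span]
    congr 1
    have h2 : (S : Set F) = (S.toSubmonoid : Set F) := rfl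
    rw [h2, Submonoid.closure_eq]
  have h3 : (IntermediateField.adjoin K⟮x⟯ (S : Set F)).toSubalgebra
      = Algebra.adjoin K⟮x⟯ (S : Set F) :=
    IntermediateField.adjoin_toSubalgebra_of_isAlgebraic
      fun y _ => Algebra.IsAlgebraic.isAlgebraic y
  rw [eq_top_iff]
  rintro f -
  rw [← h1, ← h3]
  have hf : f ∈ IntermediateField.adjoin K (S : Set F) := by
    rw [hS]
    trivial
  have hle : IntermediateField.adjoin K (S : Set F)
      ≤ (IntermediateField.adjoin K⟮x⟯ (S : Set F)).restrictScalars K := by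
    rw [IntermediateField.adjoin_le_iff]
    exact IntermediateField.subset_adjoin K⟮x⟯ _
  exact hle hf

/-- A basis of `F / K(x)` inside a subring `S` generating `F` over `K`. -/
theorem exists_basis_mem_of_adjoin_eq_top (x : F) [FiniteDimensional K⟮x⟯ F] (S : Subring F)
    (hS : IntermediateField.adjoin K (S : Set F) = ⊤) :
    ∃ θ : Fin (Module.finrank K⟮x⟯ F) → F, (∀ i, θ i ∈ S) ∧ LinearIndependent K⟮x⟯ θ := by
  classical
  have hsp : (⊤ : Submodule K⟮x⟯ F) ≤ Submodule.span K⟮x⟯ (S : Set F) :=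
    (span_eq_top_of_adjoin_eq_top x S hS).ge
  set b := Module.Basis.ofSpan hsp with hb
  haveI : Fintype ↑((linearIndepOn_empty K⟮x⟯ id).extend
      (Set.empty_subset (S : Set F))) := FiniteDimensional.fintypeBasisIndex b
  have hcard : Fintype.card ↑((linearIndepOn_empty K⟮x⟯ id).extend
      (Set.empty_subset (S : Set F))) = Module.finrank K⟮x⟯ F :=
    (Module.finrank_eq_card_basis b).symm
  let e := (Fintype.equivFinOfCardEq hcard).symm
  refine ⟨fun i => b (e i), fun i => ?_, ?_⟩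
  · exact Module.Basis.ofSpan_subset hsp ⟨e i, rfl⟩
  · exact b.linearIndependent.comp e e.injective

/-- The basis defined by a linearly independent family of the right cardinality. -/
theorem exists_basis_eq {E V : Type*} [Field E] [AddCommGroup V] [Module E V]
    [FiniteDimensional E V] (θ : Fin (Module.finrank E V) → V) (hli : LinearIndependent E θ) :
    ∃ b : Module.Basis (Fin (Module.finrank E V)) E V, ∀ i, b i = θ i := by
  have hsp : Submodule.span E (Set.range θ) = ⊤ :=
    hli.span_eq_top_of_card_eq_finrank' (Fintype.card_fin _)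
  exact ⟨Module.Basis.mk hli hsp.ge, fun i => by rw [Module.Basis.mk_apply]⟩

end Generic

/-! ### Constants -/

/-- An element of `ℚ̄` fixed by every automorphism of `ℚ̄` which fixes `K₀` pointwise lies in
`K₀`. -/
theorem mem_of_forall_fixed (K₀ : IntermediateField ℚ Kb) (c : Kb)
    (h : ∀ σ : Kb ≃ₐ[ℚ] Kb, (∀ a ∈ K₀, σ a = a) → σ c = c) : c ∈ K₀ := by
  haveI : Algebra.IsAlgebraic ℚ Kb := isAlgebraic_Kb
  haveI : Normal ℚ Kb := normal_Kb
  haveI : Normal ↥K₀ Kb := Normal.tower_top_of_normal ℚ ↥K₀ Kb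
  haveI : IsGalois ↥K₀ Kb := ⟨⟩
  have h1 : c ∈ Set.range (algebraMap ↥K₀ Kb) := by
    rw [InfiniteGalois.mem_range_algebraMap_iff_fixed]
    intro f
    have h2 := h (f.restrictScalars ℚ) (fun a ha => f.commutes ⟨a, ha⟩)
    exact h2
  obtain ⟨a, rfl⟩ := h1
  exact a.2

/-- The Galois action of an automorphism fixing `K₀` is trivial on the `K₀`-form. -/
theorem arithmeticRingAut_eq_self (N : ℕ) (K₀ : IntermediateField ℚ Kb) (σ : Kb ≃ₐ[ℚ] Kb)
    (hσ : ∀ a ∈ K₀, σ a = a) {f : FN N} (hf : f ∈ ratForm N K₀) :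
    arithmeticRingAut (modularFunctionFieldFull N) σ f = f := by
  induction hf using IntermediateField.adjoin_induction with
  | mem y hy =>
    obtain ⟨g, rfl⟩ := hy
    exact arithmeticRingAut_ratEmb N σ g
  | algebraMap c =>
    have h : arithmeticRingAut (modularFunctionFieldFull N) σ (algebraMap K₀ (FN N) c)
        = algebraMap Kb (FN N) (σ (c : Kb)) :=
      arithmeticRingAut_algebraMap (modularFunctionFieldFull N) σ (c : Kb)
    rw [h, hσ c c.2]
    rfl
  | add y z _ _ hy hz => rw [map_add, hy, hz]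
  | inv y _ hy => rw [map_inv₀, hy]
  | mul y z _ _ hy hz => rw [map_mul, hy, hz]

/-- `K₀` is algebraically closed in its form: a constant of `ratForm N K₀` lies in `K₀`. -/
theorem mem_of_algebraMap_mem_ratForm (N : ℕ) (K₀ : IntermediateField ℚ Kb) {c : Kb}
    (hc : algebraMap Kb (FN N) c ∈ ratForm N K₀) : c ∈ K₀ := by
  refine mem_of_forall_fixed K₀ c fun σ hσ => ?_
  have h1 := arithmeticRingAut_eq_self N K₀ σ hσ hc
  rw [arithmeticRingAut_algebraMap (modularFunctionFieldFull N) σ c] at h1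
  exact (algebraMap Kb (FN N)).injective h1

/-- **(ALG-CL)**  `A ∩ K₀` is integrally closed in `ratForm N K₀` (the clause `const₀` of
`S18.H19.DSetup`), at every level and for every `K₀`. -/
theorem ratForm_const₀ (N : ℕ) (A : ValuationSubring Kb) (K₀ : IntermediateField ℚ Kb) :
    letI := algComap (A.comap (algebraMap K₀ Kb)) (ratForm N K₀)
    ∀ y : ↥(ratForm N K₀), IsIntegral ↥(A.comap (algebraMap K₀ Kb)) y →
      ∃ a : ↥(A.comap (algebraMap K₀ Kb)),
        y = algebraMap ↥(A.comap (algebraMap K₀ Kb)) ↥(ratForm N K₀) a := by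
  letI := algComap (A.comap (algebraMap K₀ Kb)) (ratForm N K₀)
  show ∀ y : ↥(ratForm N K₀), IsIntegral ↥(A.comap (algebraMap K₀ Kb)) y →
      ∃ a : ↥(A.comap (algebraMap K₀ Kb)), y = algebraMap K₀ ↥(ratForm N K₀) (a : K₀)
  rintro y ⟨P, hPm, hP0⟩
  set φ : ↥(A.comap (algebraMap K₀ Kb)) →+* Kb :=
    (algebraMap K₀ Kb).comp (A.comap (algebraMap K₀ Kb)).subtype with hφ
  have hPmK : (P.map φ).Monic := hPm.map φ
  have hcoef : ∀ i, (P.map φ).coeff i ∈ A := by
    intro i
    rw [coeff_map]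
    exact (P.coeff i).2
  have hev : aeval (y : FN N) (P.map φ) = 0 := by
    have h1 : aeval (y : FN N) (P.map φ) =
        algebraMap ↥(ratForm N K₀) (FN N)
          (eval₂ (algebraMap ↥(A.comap (algebraMap K₀ Kb)) ↥(ratForm N K₀)) y P) := by
      rw [aeval_def, eval₂_map, hom_eval₂]
      rfl
    rw [h1, hP0, map_zero]
  obtain ⟨c, hc, hroot⟩ := exists_root_of_aeval_eq_zero (K := Kb) (F := FN N) (P.map φ) hPmK hev
  have hcA : c ∈ A := Fermat.Agent.S18.H67.root_mem_of_monic A (P.map φ) hPmK hcoef c hroot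
  have hcK : c ∈ K₀ := mem_of_algebraMap_mem_ratForm N K₀ (by rw [hc]; exact y.2)
  refine ⟨⟨⟨c, hcK⟩, hcA⟩, Subtype.ext ?_⟩
  rw [← hc]
  rfl

/-! ### A rational basis -/

section Basis

variable (N : ℕ)

/-- A rational transcendental function is transcendental over `ℚ`. -/
theorem transcendental_rat_of_ratEmb (x₀ : ↥(modularFunctionFieldFull N))
    (hx : Transcendental Kb (ratEmb N x₀)) : Transcendental ℚ (x₀ : LaurentSeries ℚ) := by
  rintro ⟨P, hP0, hP⟩
  apply hx
  refine ⟨P.map (algebraMap ℚ Kb), (Polynomial.map_ne_zero_iff (algebraMap ℚ Kb).injective).mpr hP0,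
    ?_⟩
  rw [aeval_map_algebraMap]
  have h1 : aeval (ratEmb N x₀) P = ratEmb N (aeval x₀ P) :=
    (ringHom_aeval_rat (ratEmb N) x₀ P).symm
  rw [h1]
  have h2 : aeval x₀ P = 0 := by
    apply Subtype.ext
    have h3 : ((aeval x₀ P : ↥(modularFunctionFieldFull N)) : LaurentSeries ℚ)
        = aeval (x₀ : LaurentSeries ℚ) P :=
      (ringHom_aeval_rat (algebraMap ↥(modularFunctionFieldFull N) (LaurentSeries ℚ)) x₀ P)
    rw [h3, hP]
    rfl
  rw [h2, map_zero]

/-- **A rational basis.**  For a rational function `x₀` such that `F_N / ℚ̄(x)` is finite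
(`x = ratEmb N x₀` transcendental), there is a `ℚ̄(x)`-basis `θ` of `F_N` consisting of rational
functions, and every rational function is a `K₀(x)`-combination of `θ`, for every `K₀`. -/
theorem exists_rat_basis (x₀ : ↥(modularFunctionFieldFull N))
    (hx₀ : Transcendental ℚ (x₀ : LaurentSeries ℚ))
    [FiniteDimensional Kb⟮ratEmb N x₀⟯ (FN N)] :
    ∃ θ : Fin (Module.finrank Kb⟮ratEmb N x₀⟯ (FN N)) → FN N,
      (∀ i, θ i ∈ Set.range (ratEmb N)) ∧ LinearIndependent Kb⟮ratEmb N x₀⟯ θ ∧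
      ∀ (K₀ : IntermediateField ℚ Kb) (f : ↥(modularFunctionFieldFull N)),
        ratEmb N f ∈ Submodule.span K₀⟮ratEmb N x₀⟯ (Set.range θ) := by
  have hS : IntermediateField.adjoin Kb (((ratEmb N).range : Subring (FN N)) : Set (FN N)) = ⊤ :=
    adjoin_range_ratEmb N
  obtain ⟨θ, hθ, hli⟩ := exists_basis_mem_of_adjoin_eq_top (K := Kb) (ratEmb N x₀)
    (ratEmb N).range hS
  have hθ' : ∀ i, θ i ∈ Set.range (ratEmb N) := fun i => RingHom.mem_range.mp (hθ i)
  exact ⟨θ, hθ', hli, fun K₀ f => rat_span_of_finrank N x₀ hx₀ θ hθ' hli K₀ f⟩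

/-- `(K₀, ratForm N K₀)` is a good pair for a rational basis. -/
theorem goodPair_ratForm (x₀ : ↥(modularFunctionFieldFull N)) {μ : ℕ} (θ : Fin μ → FN N)
    (hθ : ∀ i, θ i ∈ Set.range (ratEmb N))
    (K₀ : IntermediateField ℚ Kb)
    (hspan : ∀ f : ↥(modularFunctionFieldFull N),
      ratEmb N f ∈ Submodule.span K₀⟮ratEmb N x₀⟯ (Set.range θ)) :
    GoodPair (ratEmb N x₀) K₀ (ratForm N K₀) θ := by
  have h1 : (1 : FN N) ∈ Submodule.span K₀⟮ratEmb N x₀⟯ (Set.range θ) := by
    have h := hspan 1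
    rwa [map_one] at h
  have hmul : ∀ i j, θ i * θ j ∈ Submodule.span K₀⟮ratEmb N x₀⟯ (Set.range θ) := by
    intro i j
    obtain ⟨si, hsi⟩ := hθ i
    obtain ⟨sj, hsj⟩ := hθ j
    have h := hspan (si * sj)
    rwa [map_mul, hsi, hsj] at h
  obtain ⟨F₀, hG, hF₀⟩ := Fermat.Agent.S34.H78.goodPair_over (k := ℚ) (ratEmb N x₀) θ K₀ h1 hmul
    K₀ le_rfl
  obtain rfl := eq_ratForm_of_span N K₀ (ratEmb N x₀) ⟨x₀, rfl⟩ θ hθ hspan F₀ hF₀
  exact hG

end Basis

/-! ### Transcendence and finiteness over `K₀(j)` -/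

section Finite

variable (N : ℕ) (A : ValuationSubring Kb) (K₀ : IntermediateField ℚ Kb)

/-- `j` is transcendental over `A ∩ K₀`. -/
theorem ratForm_transc (x₀ : ↥(modularFunctionFieldFull N))
    (hx : Transcendental Kb (ratEmb N x₀)) :
    letI := algComap (A.comap (algebraMap K₀ Kb)) (ratForm N K₀)
    Transcendental ↥(A.comap (algebraMap K₀ Kb))
      (⟨ratEmb N x₀, ratEmb_mem_ratForm N K₀ x₀⟩ : ↥(ratForm N K₀)) :=
  Fermat.Agent.S18.H21.dsetup_transc A K₀ (ratForm N K₀) (ratEmb N x₀)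
    (ratEmb_mem_ratForm N K₀ x₀) hx

/-- `F_N / ℚ̄(x)` is finite for every transcendental `x`. -/
theorem finiteDimensional_of_transcendental [NeZero N] {x : FN N} (hx : Transcendental Kb x) :
    FiniteDimensional Kb⟮x⟯ (FN N) := by
  haveI : FiniteDimensional Kb⟮jtop N⟯ (FN N) := finite_top N
  exact finiteDimensional_adjoin_of_transc (jtop N) hx

/-- **(F7)**  `ratForm N K₀` is finite over `K₀(j) = ratSub (A ∩ K₀) j`. -/
theorem ratForm_finite [NeZero N] (x₀ : ↥(modularFunctionFieldFull N))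
    (hx : Transcendental Kb (ratEmb N x₀)) :
    letI := algComap (A.comap (algebraMap K₀ Kb)) (ratForm N K₀)
    Module.Finite
      ↥(ratSub ↥(A.comap (algebraMap K₀ Kb))
        (⟨ratEmb N x₀, ratEmb_mem_ratForm N K₀ x₀⟩ : ↥(ratForm N K₀)))
      ↥(ratForm N K₀) := by
  classical
  letI := algComap (A.comap (algebraMap K₀ Kb)) (ratForm N K₀)
  haveI hfd : FiniteDimensional Kb⟮ratEmb N x₀⟯ (FN N) := finiteDimensional_of_transcendental N hx
  obtain ⟨θ, hθ, hli, hspan⟩ := exists_rat_basis N x₀ (transcendental_rat_of_ratEmb N x₀ hx)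
  have hG := goodPair_ratForm N x₀ θ hθ K₀ (hspan K₀)
  have hx₀m : ratEmb N x₀ ∈ ratForm N K₀ := ratEmb_mem_ratForm N K₀ x₀
  obtain ⟨b', hb'⟩ := exists_basis_eq θ hli
  let φ : ↥(ratForm N K₀) →+* FN N := algebraMap ↥(ratForm N K₀) (FN N)
  let ψ : ↥(ratSub ↥(A.comap (algebraMap K₀ Kb)) (⟨ratEmb N x₀, hx₀m⟩ : ↥(ratForm N K₀))) →+*
      Kb⟮ratEmb N x₀⟯ :=
    (φ.comp (ratSub ↥(A.comap (algebraMap K₀ Kb))
      (⟨ratEmb N x₀, hx₀m⟩ : ↥(ratForm N K₀))).subtype).codRestrict Kb⟮ratEmb N x₀⟯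
      fun r => Fermat.Agent.S18.H78.coe_mem_adjoin_of_mem_ratSub A K₀ (ratForm N K₀)
        (ratEmb N x₀) hx₀m r r.2
  have hφ : ∀ r : ↥(ratSub ↥(A.comap (algebraMap K₀ Kb))
      (⟨ratEmb N x₀, hx₀m⟩ : ↥(ratForm N K₀))),
      φ (algebraMap _ ↥(ratForm N K₀) r) = algebraMap Kb⟮ratEmb N x₀⟯ (FN N) (ψ r) := fun r => rfl
  have hψ : Function.Injective ψ := ψ.injective
  have hφi : Function.Injective φ := φ.injective
  let θ₁ : Fin (Module.finrank Kb⟮ratEmb N x₀⟯ (FN N)) → ↥(ratForm N K₀) :=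
    fun i => ⟨θ i, hG.theta_mem i⟩
  have hb : ∀ i, b' i = φ (θ₁ i) := fun i => hb' i
  have hcoord : ∀ (a : ↥(ratForm N K₀)) (i : Fin (Module.finrank Kb⟮ratEmb N x₀⟯ (FN N))),
      ∃ r : ↥(ratSub ↥(A.comap (algebraMap K₀ Kb)) (⟨ratEmb N x₀, hx₀m⟩ : ↥(ratForm N K₀))),
        ψ r = b'.repr (φ a) i := by
    intro a i
    obtain ⟨c, hc⟩ := hG.coord (a : FN N) a.2
    let r' : Fin (Module.finrank Kb⟮ratEmb N x₀⟯ (FN N)) → Kb⟮ratEmb N x₀⟯ := fun j =>
      ⟨(c j : FN N), Fermat.Agent.S18.H78.mem_adjoin_top_of_mem_adjoin K₀ (ratEmb N x₀) (c j).2⟩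
    have h1 : b'.repr (φ a) i = r' i := by
      have h2 : φ a = ∑ j, r' j • b' j := by
        have h3 : φ a = ∑ j, ((r' j : Kb⟮ratEmb N x₀⟯) : FN N) * θ j := hc
        rw [h3]
        refine Finset.sum_congr rfl fun j _ => ?_
        rw [hb' j]
        rfl
      rw [h2, Module.Basis.repr_sum_self]
    obtain ⟨r, hr⟩ := Fermat.Agent.S18.H78.exists_mem_ratSub_of_mem_ratSubF A K₀ (ratForm N K₀)
      (ratEmb N x₀) hx₀m
      (Fermat.Agent.S18.H78.mem_ratSubF_of_mem_adjoin K₀ (ratEmb N x₀) (c i).2)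
    refine ⟨r, ?_⟩
    rw [h1]
    exact Subtype.ext hr
  obtain ⟨b₁, -⟩ := Fermat.Agent.S18.H82.exists_basis_of_repr_mem_range ψ φ hφ hψ hφi θ₁
    b' hb hcoord
  exact Module.Finite.of_basis b₁

end Finite

/-! ### The charts -/

section Charts

variable (N : ℕ) [NeZero N] (A : ValuationSubring Kb) (K₀ : IntermediateField ℚ Kb)

/-- **(M2, concrete)**  The chart fields of the model for the `K₀`-form of `F_N`, the base
`A ∩ K₀` (`K₀` a number field) and the coordinate `j = ratEmb N x₀`. -/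
theorem ratForm_chartsGood (hA : A ≠ ⊤) [FiniteDimensional ℚ K₀]
    (x₀ : ↥(modularFunctionFieldFull N)) (hx : Transcendental Kb (ratEmb N x₀)) :
    letI := algComap (A.comap (algebraMap K₀ Kb)) (ratForm N K₀)
    ChartsGood ↥(A.comap (algebraMap K₀ Kb))
      (⟨ratEmb N x₀, ratEmb_mem_ratForm N K₀ x₀⟩ : ↥(ratForm N K₀)) := by
  letI := algComap (A.comap (algebraMap K₀ Kb)) (ratForm N K₀)
  haveI : IsDiscreteValuationRing ↥(A.comap (algebraMap K₀ Kb)) :=
    Fermat.Agent.S34.H78.isDVR_comap hA K₀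
  haveI : FaithfulSMul ↥(A.comap (algebraMap K₀ Kb)) ↥(ratForm N K₀) :=
    Fermat.Agent.S34.H78.faithfulSMul_comap A K₀ (ratForm N K₀)
  exact chartsGood _ (ratForm_transc N A K₀ x₀ hx) (ratForm_finite N A K₀ x₀ hx)

/-- **The field `inter`**: a function in both charts is a constant of `A ∩ K₀`. -/
theorem ratForm_inter (hA : A ≠ ⊤) [FiniteDimensional ℚ K₀]
    (x₀ : ↥(modularFunctionFieldFull N)) (hx : Transcendental Kb (ratEmb N x₀)) :
    letI := algComap (A.comap (algebraMap K₀ Kb)) (ratForm N K₀)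
    ∀ c ∈ chart ↥(A.comap (algebraMap K₀ Kb))
        (⟨ratEmb N x₀, ratEmb_mem_ratForm N K₀ x₀⟩ : ↥(ratForm N K₀)),
      c ∈ chart ↥(A.comap (algebraMap K₀ Kb))
        (⟨ratEmb N x₀, ratEmb_mem_ratForm N K₀ x₀⟩ : ↥(ratForm N K₀))⁻¹ →
      ∃ a : ↥(A.comap (algebraMap K₀ Kb)),
        c = algebraMap ↥(A.comap (algebraMap K₀ Kb)) ↥(ratForm N K₀) a := by
  letI := algComap (A.comap (algebraMap K₀ Kb)) (ratForm N K₀)
  intro c hc₁ hc₂
  exact ratForm_const₀ N A K₀ c ((ratForm_chartsGood N A K₀ hA x₀ hx).inter c hc₁ hc₂)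

/-- **The field `ι_base`** for the inclusion of the `K₀`-form. -/
theorem ratForm_base (c : ↥(A.comap (algebraMap K₀ Kb))) :
    letI := algComap (A.comap (algebraMap K₀ Kb)) (ratForm N K₀)
    ∃ c' : Kb, algebraMap ↥(ratForm N K₀) (FN N)
      (algebraMap ↥(A.comap (algebraMap K₀ Kb)) ↥(ratForm N K₀) c) = algebraMap Kb (FN N) c' :=
  ⟨((c : K₀) : Kb), rfl⟩

/-! #### The same for an arbitrary element `j` of the `K₀`-form which is a rational function -/

/-- `j` is transcendental over `A ∩ K₀`. -/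
theorem ratForm_transc_of_mem (j : ↥(ratForm N K₀)) (hx : Transcendental Kb (j : FN N)) :
    letI := algComap (A.comap (algebraMap K₀ Kb)) (ratForm N K₀)
    Transcendental ↥(A.comap (algebraMap K₀ Kb)) j :=
  Fermat.Agent.S18.H21.dsetup_transc A K₀ (ratForm N K₀) (j : FN N) j.2 hx

/-- **(F7)** for `j ∈ ratForm N K₀` a rational function. -/
theorem ratForm_finite_of_mem (j : ↥(ratForm N K₀)) (hj : (j : FN N) ∈ Set.range (ratEmb N))
    (hx : Transcendental Kb (j : FN N)) :
    letI := algComap (A.comap (algebraMap K₀ Kb)) (ratForm N K₀)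
    Module.Finite ↥(ratSub ↥(A.comap (algebraMap K₀ Kb)) j) ↥(ratForm N K₀) := by
  obtain ⟨x₀, hx₀⟩ := hj
  obtain rfl : j = ⟨ratEmb N x₀, ratEmb_mem_ratForm N K₀ x₀⟩ := Subtype.ext hx₀.symm
  exact ratForm_finite N A K₀ x₀ hx

/-- **(M2, concrete)** for `j ∈ ratForm N K₀` a rational function. -/
theorem ratForm_chartsGood_of_mem (hA : A ≠ ⊤) [FiniteDimensional ℚ K₀] (j : ↥(ratForm N K₀))
    (hj : (j : FN N) ∈ Set.range (ratEmb N)) (hx : Transcendental Kb (j : FN N)) :
    letI := algComap (A.comap (algebraMap K₀ Kb)) (ratForm N K₀)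
    ChartsGood ↥(A.comap (algebraMap K₀ Kb)) j := by
  obtain ⟨x₀, hx₀⟩ := hj
  obtain rfl : j = ⟨ratEmb N x₀, ratEmb_mem_ratForm N K₀ x₀⟩ := Subtype.ext hx₀.symm
  exact ratForm_chartsGood N A K₀ hA x₀ hx

/-- **The field `inter`** for `j ∈ ratForm N K₀` a rational function. -/
theorem ratForm_inter_of_mem (hA : A ≠ ⊤) [FiniteDimensional ℚ K₀] (j : ↥(ratForm N K₀))
    (hj : (j : FN N) ∈ Set.range (ratEmb N)) (hx : Transcendental Kb (j : FN N)) :
    letI := algComap (A.comap (algebraMap K₀ Kb)) (ratForm N K₀)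
    ∀ c ∈ chart ↥(A.comap (algebraMap K₀ Kb)) j,
      c ∈ chart ↥(A.comap (algebraMap K₀ Kb)) j⁻¹ →
      ∃ a : ↥(A.comap (algebraMap K₀ Kb)),
        c = algebraMap ↥(A.comap (algebraMap K₀ Kb)) ↥(ratForm N K₀) a := by
  obtain ⟨x₀, hx₀⟩ := hj
  obtain rfl : j = ⟨ratEmb N x₀, ratEmb_mem_ratForm N K₀ x₀⟩ := Subtype.ext hx₀.symm
  exact ratForm_inter N A K₀ hA x₀ hx

end Charts

end Fermat.Agent.S34.H44
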