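/-
S34 / Program B' (helper44): the chart of the model over ANY number field `K₁ ⊆ ℚ̄` (normal or
not, e.g. the inertia field `E = H92.inertiaField A K₀`) is an integrally closed noetherian
domain with fraction field the `K₁`-form of `F_{Mq}`.

* `chart_icl_noeth_frac`  : for `K₁` finite over `ℚ` and `j ∈ ratForm (M q) K₁` with
  `j = α x₀`, `x₀` an admissible base function (`H30.IsBase`);
* `chartE_icl_noeth_frac` : the same over the inertia field of `A` in a normal number field
  `K₀` (parts (a), (b) of (P1) of the crossing-point assembly), in the vocabulary of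
  `H77.RegularCrossLeaf`;
* `chartsGood_of_isBase`   : all chart fields (`H44.ChartsGood`) over `K₁`.
-/
import Fermat.Agent.S34.H30.ChartClose
import Fermat.Agent.S34.H92.BaseFinal
import Fermat.Agent.S34.H54.KrullAut

set_option autoImplicit false
set_option linter.style.haveILetI false
set_option linter.unusedSectionVars false

open AlgebraicCurve IntermediateField ModularCurve Polynomial

noncomputable section

namespace Fermat.Agent.S34.H44

open Fermat.Agent.S18.H74 Fermat.Agent.S18 Fermat.Agent.S18.H19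
  Fermat.Agent.S34.H19 Fermat.Agent.S34.H61 Fermat.Agent.S34.H30 Fermat.Agent.S34.H64

section AnyField

variable (M q : ℕ) [NeZero M] [Fact q.Prime] (hqM : ¬ q ∣ M) (A : ValuationSubring Kb)
  (hA : A.LiesOverPrime q) (hAtop : A ≠ ⊤) (x₀ : FN M) (hx₀ : IsBase M q hqM A hA x₀)
  (K₁ : IntermediateField ℚ Kb) [FiniteDimensional ℚ K₁] (j : ↥(ratForm (M * q) K₁))
  (hj : (j : FN (M * q)) = heckeAlphaBar Kb M q x₀)

include hx₀ hj hAtop in
/-- All chart fields over an arbitrary number field `K₁`. -/
theorem chartsGood_of_isBase :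
    letI := algComap (A.comap (algebraMap K₁ Kb)) (ratForm (M * q) K₁)
    ChartsGood ↥(A.comap (algebraMap K₁ Kb)) j := by
  haveI : NeZero q := ⟨(Fact.out : q.Prime).ne_zero⟩
  have hr : (j : FN (M * q)) ∈ Set.range (ratEmb (M * q)) := by
    rw [hj]
    exact hx₀.alpha_rat
  have htr : Transcendental Kb (j : FN (M * q)) := by
    rw [hj]
    exact hx₀.alpha_transcendental
  exact ratForm_chartsGood_of_mem (M * q) A K₁ hAtop j hr htr

include hx₀ hj hAtop in
/-- **The chart over a number field `K₁`** (normal or not) is an integrally closed noetherian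
ring with fraction field the `K₁`-form. -/
theorem chart_icl_noeth_frac :
    letI := algComap (A.comap (algebraMap K₁ Kb)) (ratForm (M * q) K₁)
    IsIntegrallyClosed ↥(chart ↥(A.comap (algebraMap K₁ Kb)) j) ∧
      IsNoetherianRing ↥(chart ↥(A.comap (algebraMap K₁ Kb)) j) ∧
      IsFractionRing ↥(chart ↥(A.comap (algebraMap K₁ Kb)) j) ↥(ratForm (M * q) K₁) := by
  letI := algComap (A.comap (algebraMap K₁ Kb)) (ratForm (M * q) K₁)
  have hCG := chartsGood_of_isBase M q hqM A hA hAtop x₀ hx₀ K₁ j hj
  exact ⟨hCG.icl₁, hCG.noeth₁,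
    Fermat.Agent.S34.H54.isFractionRing_of_forall_div _ hCG.frac₁⟩

include hx₀ hj hAtop in
/-- The same for the chart at infinity. -/
theorem chart_inv_icl_noeth_frac :
    letI := algComap (A.comap (algebraMap K₁ Kb)) (ratForm (M * q) K₁)
    IsIntegrallyClosed ↥(chart ↥(A.comap (algebraMap K₁ Kb)) j⁻¹) ∧
      IsNoetherianRing ↥(chart ↥(A.comap (algebraMap K₁ Kb)) j⁻¹) ∧
      IsFractionRing ↥(chart ↥(A.comap (algebraMap K₁ Kb)) j⁻¹) ↥(ratForm (M * q) K₁) := by
  letI := algComap (A.comap (algebraMap K₁ Kb)) (ratForm (M * q) K₁)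
  have hCG := chartsGood_of_isBase M q hqM A hA hAtop x₀ hx₀ K₁ j hj
  exact ⟨hCG.icl₂, hCG.noeth₂,
    Fermat.Agent.S34.H54.isFractionRing_of_forall_div _ hCG.frac₂⟩

end AnyField

section Inertia

variable (M q : ℕ) [NeZero M] [Fact q.Prime] (hqM : ¬ q ∣ M) (A : ValuationSubring Kb)
  (hA : A.LiesOverPrime q) (hAtop : A ≠ ⊤) (x₀ : FN M) (hx₀ : IsBase M q hqM A hA x₀)
  (K₀ : IntermediateField ℚ Kb) [FiniteDimensional ℚ K₀] [Normal ℚ K₀]

include hA in
/-- The inertia field of `A` in a normal number field is a number field. -/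
theorem finiteDimensional_inertiaField :
    FiniteDimensional ℚ ↥(Fermat.Agent.S34.H92.inertiaField A K₀) := by
  obtain ⟨π, e, g, hB, -, -⟩ :=
    Fermat.Agent.S34.H92.inertiaBase_exists A K₀ q (Fact.out : q.Prime) hA
  exact hB.fin

include hx₀ hAtop in
/-- **(P1), parts (a) and (b)**: the chart over the inertia field `E` of `A` in `K₀` is an
integrally closed noetherian ring with fraction field the `E`-form. -/
theorem chartE_icl_noeth_frac
    (jE : ↥(ratForm (M * q) (Fermat.Agent.S34.H92.inertiaField A K₀)))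
    (hjE : (jE : FN (M * q)) = heckeAlphaBar Kb M q x₀) :
    letI := algComap (A.comap (algebraMap (Fermat.Agent.S34.H92.inertiaField A K₀) Kb))
      (ratForm (M * q) (Fermat.Agent.S34.H92.inertiaField A K₀))
    IsIntegrallyClosed
        ↥(chart ↥(A.comap (algebraMap (Fermat.Agent.S34.H92.inertiaField A K₀) Kb)) jE) ∧
      IsNoetherianRing
        ↥(chart ↥(A.comap (algebraMap (Fermat.Agent.S34.H92.inertiaField A K₀) Kb)) jE) ∧
      IsFractionRing
        ↥(chart ↥(A.comap (algebraMap (Fermat.Agent.S34.H92.inertiaField A K₀) Kb)) jE)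
        ↥(ratForm (M * q) (Fermat.Agent.S34.H92.inertiaField A K₀)) := by
  haveI := finiteDimensional_inertiaField q A hA K₀
  exact chart_icl_noeth_frac M q hqM A hA hAtop x₀ hx₀
    (Fermat.Agent.S34.H92.inertiaField A K₀) jE hjE

end Inertia

end Fermat.Agent.S34.H44
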