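/-
S34 / Program B' (helper44): **the leaf (M2) `H30.ChartLeaf`, VERBATIM**, and the field `inter`
of `H30.VData.Semi` for the concrete model `H30.stdV`.

* `transcendental_of_comap` : a function of the `K₀`-form which is transcendental over `A ∩ K₀`
  is transcendental over `ℚ̄`.
* `isBase_transcendental`, `alpha_mem_range`, `alpha_transcendental` : the coordinate
  `j = α(x₀)` of the model is a rational function, transcendental over `ℚ̄`.
* `chartLeaf : H30.ChartLeaf`.
* `stdV_inter` : the field `inter` (`C₁ ∩ C₂ = A₀`) of the concrete model.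
* `stdV_chartsGood` : all chart fields of the concrete model.
-/
import Fermat.Agent.S34.H30.Leaves
import Fermat.Agent.S34.H44.RatCharts

set_option autoImplicit false
set_option linter.style.haveILetI false
set_option linter.unusedSectionVars false

open AlgebraicCurve IntermediateField ModularCurve Polynomial

noncomputable section

namespace Fermat.Agent.S34.H44

open Fermat.Agent.S18.H74 Fermat.Agent.S18 Fermat.Agent.S18.H19
  Fermat.Agent.S34.H19 Fermat.Agent.S34.H61 Fermat.Agent.S34.H30 Fermat.Agent.S34.H64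

/-- A function of the `K₀`-form which is transcendental over `A ∩ K₀` is transcendental over
`ℚ̄`. -/
theorem transcendental_of_comap (N : ℕ) (A : ValuationSubring Kb) (K₀ : IntermediateField ℚ Kb)
    (y : ↥(ratForm N K₀))
    (hy : letI := algComap (A.comap (algebraMap K₀ Kb)) (ratForm N K₀)
      Transcendental ↥(A.comap (algebraMap K₀ Kb)) y) :
    Transcendental Kb (y : FN N) := by
  letI := algComap (A.comap (algebraMap K₀ Kb)) (ratForm N K₀)
  intro halg
  apply hy
  obtain ⟨c, hc⟩ := exists_eq_algebraMap_of_isAlg (K := Kb) (F := FN N) halg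
  have hcK : c ∈ K₀ := mem_of_algebraMap_mem_ratForm N K₀ (by rw [hc]; exact y.2)
  have hy' : y = algebraMap K₀ ↥(ratForm N K₀) ⟨c, hcK⟩ := Subtype.ext hc.symm
  by_cases h : (⟨c, hcK⟩ : K₀) ∈ A.comap (algebraMap K₀ Kb)
  · have h1 : y = algebraMap ↥(A.comap (algebraMap K₀ Kb)) ↥(ratForm N K₀) ⟨⟨c, hcK⟩, h⟩ := hy'
    rw [h1]
    exact isAlgebraic_algebraMap _
  · have hinv : (⟨c, hcK⟩ : K₀)⁻¹ ∈ A.comap (algebraMap K₀ Kb) :=
      ((A.comap (algebraMap K₀ Kb)).mem_or_inv_mem _).resolve_left h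
    have hc0 : (⟨c, hcK⟩ : K₀) ≠ 0 := fun h0 => h (by rw [h0]; exact zero_mem _)
    refine ⟨C (⟨_, hinv⟩ : ↥(A.comap (algebraMap K₀ Kb))) * X - 1, ?_, ?_⟩
    · intro h0
      have h1 := congrArg (fun p : Polynomial ↥(A.comap (algebraMap K₀ Kb)) => p.coeff 0) h0
      simp at h1
    · have h2 : algebraMap ↥(A.comap (algebraMap K₀ Kb)) ↥(ratForm N K₀) ⟨_, hinv⟩
          = algebraMap K₀ ↥(ratForm N K₀) (⟨c, hcK⟩ : K₀)⁻¹ := rfl
      rw [map_sub, map_mul, aeval_C, aeval_X, map_one, h2, hy', ← map_mul,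
        inv_mul_cancel₀ hc0, map_one, sub_self]

section Base

variable {M q : ℕ} [NeZero M] [Fact q.Prime] {hqM : ¬ q ∣ M} {A : ValuationSubring Kb}
  {hA : A.LiesOverPrime q} {x₀ : FN M}

/-- An admissible base function is transcendental over `ℚ̄`. -/
theorem isBase_transcendental (hbase : IsBase M q hqM A hA x₀) : Transcendental Kb x₀ := by
  obtain ⟨⟨g, rfl⟩, hD⟩ := hbase
  have hx : ratEmb M g ∈ ratForm M (⊥ : IntermediateField ℚ Kb) := ratEmb_mem_ratForm M ⊥ g
  exact transcendental_of_comap M A ⊥ ⟨ratEmb M g, hx⟩ (hD ⊥ hx).1.transc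

end Base

/-- `α` maps rational functions to rational functions. -/
theorem alpha_mem_range (M q : ℕ) [NeZero M] [NeZero q] {x₀ : FN M}
    (h : x₀ ∈ Set.range (ratEmb M)) :
    heckeAlphaBar Kb M q x₀ ∈ Set.range (ratEmb (M * q)) := by
  obtain ⟨g, rfl⟩ := h
  exact ⟨_, (heckeAlphaBar_ratEmb M q g).symm⟩

/-- `α` preserves transcendence over `ℚ̄`. -/
theorem alpha_transcendental (M q : ℕ) [NeZero M] [NeZero q] {x₀ : FN M}
    (h : Transcendental Kb x₀) : Transcendental Kb (heckeAlphaBar Kb M q x₀) := by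
  intro halg
  exact h ((isAlgebraic_algHom_iff (heckeAlphaBar Kb M q)
    (heckeAlphaBar Kb M q).toRingHom.injective).mp halg)

/-- **Leaf (M2)** of Program B', verbatim. -/
theorem chartLeaf : ChartLeaf := by
  intro M q _ _ hqM A hA x₀ hbase K₀ _ _ j hj
  haveI : NeZero q := ⟨(Fact.out : q.Prime).ne_zero⟩
  have hr : (j : FN (M * q)) ∈ Set.range (ratEmb (M * q)) := by
    rw [hj]
    exact alpha_mem_range M q hbase.1
  have htr : Transcendental Kb (j : FN (M * q)) := by
    rw [hj]
    exact alpha_transcendental M q (isBase_transcendental hbase)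
  exact ⟨ratForm_transc_of_mem (M * q) A K₀ j htr, ratForm_finite_of_mem (M * q) A K₀ j hr htr⟩

/-- The field `inter` of `H30.VData.Good` / `H30.VData.Semi`, as a property of a model. -/
def InterV {M : ℕ} (D : VData M) : Prop :=
  ∀ c ∈ D.C₁, c ∈ D.C₂ → ∃ a : D.A₀, c = algebraMap D.A₀ D.F₀ a

section Model

variable (M q : ℕ) [NeZero M] [Fact q.Prime] (hqM : ¬ q ∣ M) (A : ValuationSubring Kb)
  (hA : A.LiesOverPrime q) (hAtop : A ≠ ⊤) (O₁ : ValuationSubring (FN (M * q)))
  (w : FN (M * q) ≃+* FN (M * q)) (x₀ : FN M) (hbase : IsBase M q hqM A hA x₀)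
  (K₀ : IntermediateField ℚ Kb) [FiniteDimensional ℚ K₀] [Normal ℚ K₀]
  (ϖ : ↥(A.comap (algebraMap K₀ Kb))) (j : ↥(ratForm (M * q) K₀))
  (hj : (j : FN (M * q)) = heckeAlphaBar Kb M q x₀) (σ : Kb ≃ₐ[ℚ] Kb)

include hbase hj in
/-- The coordinate of the concrete model is a rational function. -/
theorem stdV_j_mem_range : (j : FN (M * q)) ∈ Set.range (ratEmb (M * q)) := by
  haveI : NeZero q := ⟨(Fact.out : q.Prime).ne_zero⟩
  rw [hj]
  exact alpha_mem_range M q hbase.1

include hbase hj in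
/-- The coordinate of the concrete model is transcendental over `ℚ̄`. -/
theorem stdV_j_transcendental : Transcendental Kb (j : FN (M * q)) := by
  haveI : NeZero q := ⟨(Fact.out : q.Prime).ne_zero⟩
  rw [hj]
  exact alpha_transcendental M q (isBase_transcendental hbase)

include hbase hj in
/-- **The field `inter` of `H30.VData.Semi`** for the concrete model: a function in both charts is
a constant of `A ∩ K₀`. -/
theorem stdV_inter : InterV (stdV M q A hAtop O₁ w K₀ ϖ j σ) :=
  ratForm_inter_of_mem (M * q) A K₀ hAtop j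
    (stdV_j_mem_range M q hqM A hA x₀ hbase K₀ j hj)
    (stdV_j_transcendental M q hqM A hA x₀ hbase K₀ j hj)

include hbase hj hAtop in
/-- All chart fields of the concrete model. -/
theorem stdV_chartsGood :
    letI := algComap (A.comap (algebraMap K₀ Kb)) (ratForm (M * q) K₀)
    ChartsGood ↥(A.comap (algebraMap K₀ Kb)) j :=
  ratForm_chartsGood_of_mem (M * q) A K₀ hAtop j
    (stdV_j_mem_range M q hqM A hA x₀ hbase K₀ j hj)
    (stdV_j_transcendental M q hqM A hA x₀ hbase K₀ j hj)

end Model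

/-- `InterV` is literally the field `inter` of `H30.VData.Semi` (so `stdV_inter` fills it). -/
theorem interV_of_semi (M q : ℕ) [NeZero M] [Fact q.Prime] (A : ValuationSubring Kb)
    (hAtop : A ≠ ⊤) (O₁ : ValuationSubring (FN (M * q)))
    (w : FN (M * q) ≃+* FN (M * q))
    (K₀ : IntermediateField ℚ Kb) [FiniteDimensional ℚ K₀] [Normal ℚ K₀]
    (ϖ : ↥(A.comap (algebraMap K₀ Kb))) (j : ↥(ratForm (M * q) K₀)) (σ : Kb ≃ₐ[ℚ] Kb)
    (h : (stdV M q A hAtop O₁ w K₀ ϖ j σ).Semi) : InterV (stdV M q A hAtop O₁ w K₀ ϖ j σ) :=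
  h.inter

end Fermat.Agent.S34.H44
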